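import Fermat.Agent.BarbanDavenportHalberstam.Main
import Fermat.Agent.CoefficientSize.Totient
import Mathlib.NumberTheory.Chebyshev

/-!
# The least prime in almost all classes

In a class without a prime `≤ x` only proper prime powers are left of `ψ (x; q, a)`, so the
variance of Barban, Davenport and Halberstam at `x = g Q log Q` bounds the number of these
classes by `O (Q ² / g)`.
-/

set_option autoImplicit false

noncomputable section

namespace FA.LeastPrimeClasses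

open Finset Filter
open FA.ThreePrimes (unitResidues)
open FA.BombieriVinogradov (psiAP psiAP_nonneg)
open scoped ArithmeticFunction.vonMangoldt Chebyshev Classical

/-- The classes modulo `q` without a prime `≤ x`. -/
def emptyClasses (x q : ℕ) : Finset ℕ :=
  (unitResidues q).filter fun a => ∀ p : ℕ, p.Prime → p ≤ x → (p : ZMod q) ≠ (a : ZMod q)

/-- The empty classes share the proper prime powers. -/
theorem sum_psiAP_empty_le (x q : ℕ) :
    ∑ a ∈ emptyClasses x q, psiAP x q a ≤ ψ (x : ℝ) - θ (x : ℝ) := by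
  have h : ψ (x : ℝ) - θ (x : ℝ) = ∑ n ∈ (Icc 1 x).filter (fun n => ¬ n.Prime), Λ n := by
    have e := sum_filter_add_sum_filter_not (Ioc 0 x) (fun n => n.Prime) (fun n => Λ n)
    have e2 : ∑ n ∈ (Ioc 0 x).filter (fun n => n.Prime), Λ n = θ (x : ℝ) := by
      rw [Chebyshev.theta, Nat.floor_natCast]
      exact sum_congr (filter_congr fun _ _ => Iff.rfl) fun p hp =>
        ArithmeticFunction.vonMangoldt_apply_prime (mem_filter.1 hp).2
    rw [Chebyshev.psi, Nat.floor_natCast, ← e, e2, show Icc 1 x = Ioc 0 x from rfl]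
    ring
  have hinj : Set.InjOn (fun a : ℕ => (a : ZMod q)) (emptyClasses x q : Finset ℕ) := by
    intro a ha b hb hab
    simp only [emptyClasses, unitResidues, coe_filter, Set.mem_ofPred_eq, mem_filter,
      mem_range] at ha hb
    have h' := (ZMod.natCast_eq_natCast_iff' a b q).1 hab
    rwa [Nat.mod_eq_of_lt ha.1.1, Nat.mod_eq_of_lt hb.1.1] at h'
  rw [h]
  calc ∑ a ∈ emptyClasses x q, psiAP x q a
      = ∑ a ∈ emptyClasses x q, ∑ n ∈ ((Icc 1 x).filter fun n => ¬ n.Prime).filter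
          (fun n : ℕ => (n : ZMod q) = (a : ZMod q)), Λ n := by
        refine sum_congr rfl fun a ha => ?_
        rw [psiAP, filter_filter]
        refine sum_congr (filter_congr fun n hn => ⟨fun h1 => ⟨fun hp => ?_, h1⟩, fun h1 => h1.2⟩)
          fun _ _ => rfl
        exact (mem_filter.1 ha).2 n hp (mem_Icc.1 hn).2 h1
    _ = ∑ r ∈ (emptyClasses x q).image (fun a : ℕ => (a : ZMod q)),
          ∑ n ∈ ((Icc 1 x).filter fun n => ¬ n.Prime).filter (fun n : ℕ => (n : ZMod q) = r),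
            Λ n := by rw [sum_image hinj]
    _ ≤ _ := by
        refine le_trans (le_of_eq ?_) (sum_le_sum_of_subset_of_nonneg
          (s := ((Icc 1 x).filter fun n => ¬ n.Prime).filter fun n : ℕ =>
            (n : ZMod q) ∈ (emptyClasses x q).image (fun a : ℕ => (a : ZMod q)))
          (filter_subset _ _) fun n _ _ => ArithmeticFunction.vonMangoldt_nonneg)
        rw [← sum_fiberwise_of_maps_to (g := fun n : ℕ => (n : ZMod q))
          (s := ((Icc 1 x).filter fun n => ¬ n.Prime).filter fun n : ℕ =>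
            (n : ZMod q) ∈ (emptyClasses x q).image (fun a : ℕ => (a : ZMod q)))
          fun n hn => (mem_filter.1 hn).2]
        refine sum_congr rfl fun r hr => sum_congr ?_ fun _ _ => rfl
        ext n
        simp only [mem_filter]
        exact ⟨fun h1 => ⟨⟨h1.1, h1.2 ▸ hr⟩, h1.2⟩, fun h1 => ⟨h1.1.1, h1.2⟩⟩

/-- The number of empty classes against the variance. -/
theorem card_empty_mul_le {x Q : ℕ} (hQ : 1 ≤ Q) {D : ℝ}
    (hD : ψ (x : ℝ) - θ (x : ℝ) ≤ D * √(x : ℝ)) :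
    (∑ q ∈ Icc 1 Q, ((emptyClasses x q).card : ℝ)) * ((x : ℝ) / Q) ^ 2 ≤
      2 * ∑ q ∈ Icc 1 Q, ∑ a ∈ unitResidues q, (psiAP x q a - x / q.totient) ^ 2 +
        2 * Q * (D ^ 2 * x) := by
  have hQ0 : (0 : ℝ) < Q := Nat.cast_pos.2 hQ
  rw [sum_mul, mul_sum,
    show 2 * (Q : ℝ) * (D ^ 2 * x) = ∑ _q ∈ Icc 1 Q, 2 * (D ^ 2 * x) by
      rw [sum_const, Nat.card_Icc, Nat.add_sub_cancel, nsmul_eq_mul]; ring, ← sum_add_distrib]
  refine sum_le_sum fun q hq => ?_
  rw [mem_Icc] at hq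
  have hφ : (0 : ℝ) < q.totient := Nat.cast_pos.2 (Nat.totient_pos.2 hq.1)
  have hφQ : (q.totient : ℝ) ≤ Q := Nat.cast_le.2 ((Nat.totient_le q).trans hq.2)
  have hw : ∀ a, 0 ≤ psiAP x q a := psiAP_nonneg x q
  have hsum := sum_psiAP_empty_le x q
  have hsq : ∑ a ∈ emptyClasses x q, psiAP x q a ^ 2 ≤ D ^ 2 * x := by
    refine (sum_sq_le_sq_sum_of_nonneg fun a _ => hw a).trans ?_
    refine (pow_le_pow_left₀ (sum_nonneg fun a _ => hw a) (hsum.trans hD) 2).trans (le_of_eq ?_)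
    rw [mul_pow, Real.sq_sqrt (Nat.cast_nonneg x)]
  calc ((emptyClasses x q).card : ℝ) * ((x : ℝ) / Q) ^ 2
      ≤ ((emptyClasses x q).card : ℝ) * ((x : ℝ) / q.totient) ^ 2 := by gcongr
    _ = ∑ _a ∈ emptyClasses x q, ((x : ℝ) / q.totient) ^ 2 := by rw [sum_const, nsmul_eq_mul]
    _ ≤ ∑ a ∈ emptyClasses x q,
          (2 * (psiAP x q a - x / q.totient) ^ 2 + 2 * psiAP x q a ^ 2) :=
        sum_le_sum fun a _ => by
          nlinarith [sq_nonneg (2 * psiAP x q a - (x : ℝ) / q.totient)]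
    _ ≤ 2 * ∑ a ∈ unitResidues q, (psiAP x q a - x / q.totient) ^ 2 + 2 * (D ^ 2 * x) := by
        rw [sum_add_distrib, ← mul_sum, ← mul_sum]
        refine add_le_add (mul_le_mul_of_nonneg_left ?_ two_pos.le)
          (mul_le_mul_of_nonneg_left hsq two_pos.le)
        exact sum_le_sum_of_subset_of_nonneg (filter_subset _ _) fun a _ _ => sq_nonneg _

/-- **Almost all classes have a prime `≤ f Q log Q`.** -/
theorem eventually_few_empty {f : ℕ → ℝ} (hf : Tendsto f atTop atTop) {η : ℝ} (hη : 0 < η) :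
    ∀ᶠ Q : ℕ in atTop, ∑ q ∈ Icc 1 Q, (((unitResidues q).filter fun a : ℕ => ∀ p : ℕ, p.Prime →
        (p : ZMod q) = (a : ZMod q) → f Q * ((Q : ℝ) * Real.log Q) < p).card : ℝ) ≤
      η * ∑ q ∈ Icc 1 Q, (q.totient : ℝ) := by
  obtain ⟨C, hC, hbdh⟩ := BarbanDavenportHalberstam.exists_bdh 3
  obtain ⟨D, hD⟩ := Chebyshev.psi_sub_theta_le_mul_sqrt
  obtain ⟨K, hK⟩ : ∃ K, K = 4 * (3 * C + D ^ 2) * 128 / η := ⟨_, rfl⟩
  have hlim : Tendsto (fun Q : ℕ => Real.log (Q : ℝ)) atTop atTop :=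
    Real.tendsto_log_atTop.comp tendsto_natCast_atTop_atTop
  have hsum : ∀ᶠ Q : ℕ in atTop, (Q : ℝ) ^ 2 / 128 ≤ ∑ q ∈ Icc 1 Q, (q.totient : ℝ) := by
    have hhalf : Tendsto (fun Q : ℕ => Q / 2) atTop atTop :=
      tendsto_atTop_atTop.2 fun b => ⟨2 * b, fun a ha => by omega⟩
    filter_upwards [hhalf.eventually CoefficientSize.eventually_sum_totient_ge,
      eventually_ge_atTop 2] with Q hQ hQ2
    refine le_trans ?_ (hQ.trans (sum_le_sum_of_subset_of_nonneg (fun m hm => ?_)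
      fun _ _ _ => Nat.cast_nonneg _))
    · have h : (Q : ℝ) ≤ 4 * ((Q / 2 : ℕ) : ℝ) := by exact_mod_cast (by omega : Q ≤ 4 * (Q / 2))
      nlinarith [(Nat.cast_nonneg Q : (0 : ℝ) ≤ Q)]
    · rw [mem_Ioc] at hm
      exact mem_Icc.2 ⟨by omega, by omega⟩
  filter_upwards [hf.eventually_ge_atTop (max K 4), hlim.eventually_ge_atTop (max K 4), hsum,
    eventually_ge_atTop 4] with Q hfQ hLQ hφ hQ4
  obtain ⟨L, hL⟩ : ∃ L, L = Real.log (Q : ℝ) := ⟨_, rfl⟩
  rw [← hL] at hLQ ⊢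
  obtain ⟨g, hg⟩ : ∃ g, g = min (f Q) L := ⟨_, rfl⟩
  have hgK : K ≤ g := hg ▸ le_min (le_of_max_le_left hfQ) (le_of_max_le_left hLQ)
  have hg4 : 4 ≤ g := hg ▸ le_min (le_of_max_le_right hfQ) (le_of_max_le_right hLQ)
  have hgL : g ≤ L := hg ▸ min_le_right _ _
  have hgf : g ≤ f Q := hg ▸ min_le_left _ _
  have hQr : (4 : ℝ) ≤ Q := Nat.ofNat_le_cast.2 hQ4
  have hQL : 16 ≤ (Q : ℝ) * L := by nlinarith
  obtain ⟨x, hx⟩ : ∃ x : ℕ, x = ⌊g * ((Q : ℝ) * L)⌋₊ := ⟨_, rfl⟩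
  have hxu : (x : ℝ) ≤ g * ((Q : ℝ) * L) := hx ▸ Nat.floor_le (by positivity)
  have hxl : g * ((Q : ℝ) * L) / 2 ≤ x := by
    have h := Nat.lt_floor_add_one (g * ((Q : ℝ) * L))
    rw [← hx] at h
    nlinarith
  have hxQ : (Q : ℝ) ≤ x := by nlinarith
  have hx0 : (0 : ℝ) < x := by linarith
  have hLx : L ≤ Real.log x := hL ▸ Real.log_le_log (by linarith) hxQ
  have hxL : Real.log x ≤ 3 * L := by
    have h1 : L ≤ Q := hL ▸ (Real.log_le_sub_one_of_pos (by linarith)).trans (by linarith)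
    have h2 : (x : ℝ) ≤ (Q : ℝ) ^ 3 := by
      refine hxu.trans ?_
      calc g * ((Q : ℝ) * L) ≤ Q * ((Q : ℝ) * Q) := by gcongr; linarith
        _ = _ := by ring
    refine (Real.log_le_log hx0 h2).trans (le_of_eq ?_)
    rw [Real.log_pow, ← hL]
    push_cast
    rfl
  have hA : (x : ℝ) / Real.log x ^ 3 ≤ Q := by
    rw [div_le_iff₀ (pow_pos (by linarith) 3)]
    calc (x : ℝ) ≤ L * ((Q : ℝ) * L) := hxu.trans (by gcongr)
      _ = Q * L ^ 2 := by ring
      _ ≤ Q * Real.log x ^ 3 := by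
          gcongr
          calc L ^ 2 ≤ L ^ 3 := pow_le_pow_right₀ (by linarith) (by norm_num)
            _ ≤ _ := pow_le_pow_left₀ (by linarith) hLx 3
  have hQx : Q ≤ x := Nat.cast_le.1 hxQ
  have hB := hbdh x (by omega) Q hA hQx
  have hcore := card_empty_mul_le (x := x) (Q := Q) (by omega) (hD x)
  refine le_trans (sum_le_sum (g := fun q => ((emptyClasses x q).card : ℝ))
    fun q _ => Nat.cast_le.2 (card_le_card fun a ha => ?_)) (le_trans ?_
    (mul_le_mul_of_nonneg_left hφ hη.le))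
  · rw [mem_filter] at ha
    rw [emptyClasses, mem_filter]
    refine ⟨ha.1, fun p hp hpx he => ?_⟩
    have h1 := ha.2 p hp he
    have h2 : (p : ℝ) ≤ f Q * ((Q : ℝ) * L) :=
      (Nat.cast_le.2 hpx).trans (hxu.trans (mul_le_mul_of_nonneg_right hgf (by positivity)))
    linarith
  obtain ⟨S, hS⟩ : ∃ S, S = ∑ q ∈ Icc 1 Q, ((emptyClasses x q).card : ℝ) := ⟨_, rfl⟩
  rw [← hS] at hcore ⊢
  have hlog3 := mul_le_mul_of_nonneg_left hxL (show 0 ≤ C * ((x : ℝ) * Q) by positivity)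
  have h2 : S * ((x : ℝ) / Q) ^ 2 ≤ 2 * ((x : ℝ) * Q * L) * (3 * C + D ^ 2) := by
    have h3 := mul_le_mul_of_nonneg_left (show (1 : ℝ) ≤ L by linarith)
      (show 0 ≤ (Q : ℝ) * (D ^ 2 * x) by positivity)
    linarith
  rw [div_pow, mul_div_assoc', div_le_iff₀ (by positivity)] at h2
  have h4 : S * x ≤ 2 * ((Q : ℝ) ^ 3 * L) * (3 * C + D ^ 2) :=
    le_of_mul_le_mul_right (by linarith) hx0
  have hKg : 4 * (3 * C + D ^ 2) * 128 ≤ η * g := by
    rw [hK, div_le_iff₀ hη] at hgK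
    linarith
  refine le_of_mul_le_mul_right ?_ hx0
  refine h4.trans ?_
  calc 2 * ((Q : ℝ) ^ 3 * L) * (3 * C + D ^ 2)
      = (4 * (3 * C + D ^ 2) * 128) * ((Q : ℝ) ^ 2 / 128 * ((Q : ℝ) * L) / 2) := by ring
    _ ≤ (η * g) * ((Q : ℝ) ^ 2 / 128 * ((Q : ℝ) * L) / 2) := by gcongr
    _ = η * ((Q : ℝ) ^ 2 / 128) * (g * ((Q : ℝ) * L) / 2) := by ring
    _ ≤ _ := by gcongr

end FA.LeastPrimeClasses

end
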